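import Mathlib

/-!
# S52 / IRR, pieces K1 + K2 (helper8823): local isolation of the integer roots of `psi3`

For the short model `y^2 = x^3 + a x + b` put `gh a b y = 27 * psi3 (y / 3)
  = y^4 + 18 a y^2 + 108 b y - 27 a^2` (monic, integral).  If `gh` has an integer root `r` and
`4 a^3 + 27 b^2 ≠ 0`, then there are a prime `p`, a constant `c` and a second integer root `r'`
(possibly `r' = r`) such that every integer `y` with `p^(4n+c) ∣ gh a b y` satisfies
`p^n ∣ y - r` or `p^n ∣ y - r'`.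

Proof: Kummer structure `9 r μ gh(y) = (y - r) (Z^3 - Dh (y-r)^3)`, `Z = 2 r (y - r) + 3 μ`,
`μ = r^2 + 3 a`, `Dh = - r (r^2 + 27 a)`.  If `Dh` is not a cube take a prime `p` with
`3 ∤ v_p(Dh)` (ramified prime); if `Dh = e^3` take `p = 2` (`Z^2 + Z V + V^2` is anisotropic at `2`).
-/

set_option autoImplicit false

namespace Fermat.Agent.S52.IRR.H8823

open Polynomial

/-- `27 * psi3 (y / 3)` for the short model `y^2 = x^3 + a x + b`. -/
def gh (a b y : ℤ) : ℤ := y ^ 4 + 18 * a * y ^ 2 + 108 * b * y - 27 * a ^ 2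

/-- prime powers dividing a product. -/
theorem pp_mul (p : ℕ) (hp : p.Prime) (u v : ℕ) (x y : ℤ)
    (h : (p : ℤ) ^ (u + v + 1) ∣ x * y) : (p : ℤ) ^ (u + 1) ∣ x ∨ (p : ℤ) ^ (v + 1) ∣ y := by
  have := Fact.mk hp
  by_cases hx : x = 0
  · left; simp [hx]
  by_cases hy : y = 0
  · right; simp [hy]
  rw [padicValInt_dvd_iff] at h
  rcases h with h | h
  · exact absurd h (mul_ne_zero hx hy)
  rw [padicValInt.mul hx hy] at h
  rw [padicValInt_dvd_iff, padicValInt_dvd_iff]
  by_cases h1 : u + 1 ≤ padicValInt p x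
  · left; right; exact h1
  · right; right; omega

theorem not_pp_dvd (p : ℕ) (hp : p.Prime) (x : ℤ) (hx : x ≠ 0) :
    ¬ (p : ℤ) ^ (padicValInt p x + 1) ∣ x := by
  have := Fact.mk hp
  rw [padicValInt_dvd_iff]
  rintro (h | h)
  · exact hx h
  · omega

/-- ramified prime: `Z^3 - Dh W^3` is not too divisible by `p` when `3 ∤ v_p(Dh)`. -/
theorem cube_val (p : ℕ) (hp : p.Prime) (Dh : ℤ) (hD : Dh ≠ 0) (h3 : ¬ 3 ∣ padicValInt p Dh)
    (t : ℕ) (Z W : ℤ) (h : (p : ℤ) ^ (3 * t + padicValInt p Dh + 1) ∣ Z ^ 3 - Dh * W ^ 3) :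
    (p : ℤ) ^ (t + 1) ∣ W := by
  have := Fact.mk hp
  by_contra hW
  have hW0 : W ≠ 0 := by rintro rfl; exact hW (dvd_zero _)
  have hw : padicValInt p W ≤ t := by
    by_contra hlt
    exact hW ((padicValInt_dvd_iff _ _).2 (Or.inr (by omega)))
  have hW3 : padicValInt p (Dh * W ^ 3) = padicValInt p Dh + 3 * padicValInt p W := by
    have e3 : W ^ 3 = W * W * W := by ring
    rw [padicValInt.mul hD (pow_ne_zero 3 hW0), e3,
      padicValInt.mul (mul_ne_zero hW0 hW0) hW0, padicValInt.mul hW0 hW0]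
    ring
  by_cases hZ : Z = 0
  · subst hZ
    have h' : (p : ℤ) ^ (3 * t + padicValInt p Dh + 1) ∣ Dh * W ^ 3 := by
      have := (dvd_neg).2 h
      simpa using this
    rw [padicValInt_dvd_iff] at h'
    rcases h' with h' | h'
    · exact mul_ne_zero hD (pow_ne_zero 3 hW0) h'
    · omega
  have hZ3 : padicValInt p (Z ^ 3) = 3 * padicValInt p Z := by
    have e3 : Z ^ 3 = Z * Z * Z := by ring
    rw [e3, padicValInt.mul (mul_ne_zero hZ hZ) hZ, padicValInt.mul hZ hZ]
    ring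
  rcases lt_or_gt_of_ne (show 3 * padicValInt p Z ≠ padicValInt p Dh + 3 * padicValInt p W by
    omega) with hlt | hgt
  · have h1 : (p : ℤ) ^ (3 * padicValInt p Z + 1) ∣ Dh * W ^ 3 :=
      (padicValInt_dvd_iff _ _).2 (Or.inr (by omega))
    have h2 : (p : ℤ) ^ (3 * padicValInt p Z + 1) ∣ Z ^ 3 - Dh * W ^ 3 :=
      (pow_dvd_pow _ (by omega)).trans h
    have h3' : (p : ℤ) ^ (3 * padicValInt p Z + 1) ∣ Z ^ 3 := by
      have := dvd_add h2 h1
      simpa using this
    rw [padicValInt_dvd_iff] at h3'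
    rcases h3' with h3' | h3'
    · exact pow_ne_zero 3 hZ h3'
    · omega
  · have h1 : (p : ℤ) ^ (padicValInt p Dh + 3 * padicValInt p W + 1) ∣ Z ^ 3 :=
      (padicValInt_dvd_iff _ _).2 (Or.inr (by omega))
    have h2 : (p : ℤ) ^ (padicValInt p Dh + 3 * padicValInt p W + 1) ∣ Z ^ 3 - Dh * W ^ 3 :=
      (pow_dvd_pow _ (by omega)).trans h
    have h3' : (p : ℤ) ^ (padicValInt p Dh + 3 * padicValInt p W + 1) ∣ Dh * W ^ 3 := by
      have := dvd_sub h1 h2
      simpa using this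
    rw [padicValInt_dvd_iff] at h3'
    rcases h3' with h3' | h3'
    · exact mul_ne_zero hD (pow_ne_zero 3 hW0) h3'
    · omega

/-- the norm form `Z^2 + Z V + V^2` is anisotropic at `2`. -/
theorem norm_two (t : ℕ) : ∀ (Z V : ℤ), (2 : ℤ) ^ (2 * t + 1) ∣ Z ^ 2 + Z * V + V ^ 2 →
    (2 : ℤ) ^ (t + 1) ∣ V := by
  induction t with
  | zero =>
    intro Z V h
    have h2 : Even (Z ^ 2 + Z * V + V ^ 2) := by
      rw [even_iff_two_dvd]; simpa using h
    have hV : Even V := by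
      simp only [Int.even_add, Int.even_mul, Int.even_pow] at h2
      tauto
    simpa using even_iff_two_dvd.1 hV
  | succ t ih =>
    intro Z V h
    have h2 : Even (Z ^ 2 + Z * V + V ^ 2) := by
      rw [even_iff_two_dvd]
      exact (dvd_pow_self (2 : ℤ) (by omega)).trans h
    have hV : Even V := by
      simp only [Int.even_add, Int.even_mul, Int.even_pow] at h2
      tauto
    have hZ : Even Z := by
      simp only [Int.even_add, Int.even_mul, Int.even_pow] at h2
      tauto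
    obtain ⟨Z', rfl⟩ := hZ
    obtain ⟨V', rfl⟩ := hV
    have e1 : (Z' + Z') ^ 2 + (Z' + Z') * (V' + V') + (V' + V') ^ 2
        = 4 * (Z' ^ 2 + Z' * V' + V' ^ 2) := by ring
    have e2 : (2 : ℤ) ^ (2 * (t + 1) + 1) = 4 * 2 ^ (2 * t + 1) := by
      rw [show 2 * (t + 1) + 1 = 2 + (2 * t + 1) by ring, pow_add]; norm_num
    rw [e1, e2] at h
    have h' := Int.dvd_of_mul_dvd_mul_left (by norm_num : (4 : ℤ) ≠ 0) h
    have := ih Z' V' h'
    rw [show V' + V' = 2 * V' by ring, pow_succ']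
    exact mul_dvd_mul_left 2 this

theorem norm_ne_zero (Z V : ℤ) (hV : V ≠ 0) : Z ^ 2 + Z * V + V ^ 2 ≠ 0 := by
  intro h
  have h1 : 0 < V ^ 2 := by positivity
  nlinarith [sq_nonneg (2 * Z + V)]

/-- a nonzero integer all of whose valuations are divisible by `3` is a cube. -/
theorem cube_or_prime (D : ℤ) (hD : D ≠ 0) :
    (∃ p : ℕ, p.Prime ∧ ¬ 3 ∣ padicValInt p D) ∨ ∃ e : ℤ, D = e ^ 3 := by
  by_cases h : ∃ p : ℕ, p.Prime ∧ ¬ 3 ∣ padicValInt p D
  · exact Or.inl h
  right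
  have h' : ∀ p : ℕ, p.Prime → 3 ∣ padicValInt p D := by
    intro p hp
    by_contra hn
    exact h ⟨p, hp, hn⟩
  have hn : D.natAbs ≠ 0 := Int.natAbs_ne_zero.2 hD
  have hm3 : (D.natAbs.factorization.prod (fun p k => p ^ (k / 3))) ^ 3 = D.natAbs := by
    conv_rhs => rw [← Nat.prod_factorization_pow_eq_self hn]
    rw [Finsupp.prod, Finsupp.prod, ← Finset.prod_pow]
    refine Finset.prod_congr rfl (fun p hp => ?_)
    have hpp : p.Prime := Nat.prime_of_mem_primeFactors (n := D.natAbs) (by simpa using hp)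
    rw [← pow_mul]
    congr 1
    have h3 := h' p hpp
    have e : padicValInt p D = D.natAbs.factorization p := by
      rw [Nat.factorization_def _ hpp]; rfl
    rw [e] at h3
    omega
  rcases Int.natAbs_eq D with hD' | hD'
  · refine ⟨(D.natAbs.factorization.prod (fun p k => p ^ (k / 3)) : ℕ), ?_⟩
    rw [← Nat.cast_pow, hm3]; exact hD'
  · refine ⟨-(D.natAbs.factorization.prod (fun p k => p ^ (k / 3)) : ℕ), ?_⟩
    rw [neg_pow, ← Nat.cast_pow, hm3]
    have : (-1 : ℤ) ^ 3 = -1 := by norm_num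
    rw [this, neg_one_mul]; exact hD'

/-- a rational root of `gh` is an integer. -/
theorem int_of_rat_root (a b : ℤ) (x : ℚ)
    (hx : x ^ 4 + 18 * a * x ^ 2 + 108 * b * x - 27 * a ^ 2 = 0) : ∃ n : ℤ, (n : ℚ) = x := by
  have hmonic : (X ^ 4 + (C (18 * a) * X ^ 2 + C (108 * b) * X - C (27 * a ^ 2)) : ℤ[X]).Monic := by
    apply monic_X_pow_add
    refine lt_of_le_of_lt (b := ((2 : ℕ) : WithBot ℕ)) ?_ (by norm_num)
    compute_degree
    all_goals norm_num
  have hint : IsIntegral ℤ x := by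
    refine ⟨_, hmonic, ?_⟩
    simp only [eval₂_add, eval₂_sub, eval₂_mul, eval₂_pow, eval₂_X, eval₂_C]
    simp only [eq_intCast, Int.cast_mul, Int.cast_pow, Int.cast_ofNat]
    linear_combination hx
  obtain ⟨n, hn⟩ := IsIntegrallyClosed.isIntegral_iff.1 hint
  exact ⟨n, by simpa using hn⟩

/-- abstract Kummer isolation. -/
theorem kummer_isolate (g : ℤ → ℤ) (κ r Dh : ℤ) (Z W : ℤ → ℤ) (hD : Dh ≠ 0) (hr : g r = 0)
    (hfac : ∀ y, κ * g y = (y - r) * (Z y ^ 3 - Dh * W y ^ 3))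
    (hW : ∀ (y q : ℤ), q ∣ W y → q ∣ y - r)
    (hb : ∀ e : ℤ, Dh = e ^ 3 → ∃ (l r' : ℤ), l ≠ 0 ∧ g r' = 0 ∧ ∀ y, Z y - e * W y = l * (y - r')) :
    ∃ p : ℕ, p.Prime ∧ ∃ (c : ℕ) (r' : ℤ), g r' = 0 ∧
      ∀ (y : ℤ) (n : ℕ), (p : ℤ) ^ (4 * n + c) ∣ g y → (p : ℤ) ^ n ∣ y - r ∨ (p : ℤ) ^ n ∣ y - r' := by
  rcases cube_or_prime Dh hD with ⟨p, hp, h3⟩ | ⟨e, he⟩
  · refine ⟨p, hp, padicValInt p Dh, r, hr, ?_⟩
    intro y n h
    left
    rcases n with _ | t
    · simp
    have h1 : (p : ℤ) ^ (t + (3 * t + padicValInt p Dh + 2) + 1) ∣ (y - r) * (Z y ^ 3 - Dh * W y ^ 3) := by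
      rw [← hfac y]
      refine Dvd.dvd.mul_left ((pow_dvd_pow _ ?_).trans h) κ
      omega
    rcases pp_mul p hp _ _ _ _ h1 with h2 | h2
    · exact h2
    · have h3' : (p : ℤ) ^ (3 * t + padicValInt p Dh + 1) ∣ Z y ^ 3 - Dh * W y ^ 3 :=
        (pow_dvd_pow _ (by omega)).trans h2
      exact hW y _ (cube_val p hp Dh hD h3 t _ _ h3')
  · obtain ⟨l, r', hl, hr', hlin⟩ := hb e he
    have he0 : e ≠ 0 := by rintro rfl; exact hD (by simpa using he)
    refine ⟨2, Nat.prime_two, padicValInt 2 l + 2 * padicValInt 2 e, r', hr', ?_⟩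
    intro y n h
    rcases n with _ | t
    · simp
    by_contra hcon
    push Not at hcon
    obtain ⟨hc1, hc2⟩ := hcon
    have hfac' : κ * g y = (y - r) * (l * ((y - r') * (Z y ^ 2 + Z y * (e * W y) + (e * W y) ^ 2))) := by
      rw [hfac y, he]
      have := hlin y
      linear_combination ((y - r) * (Z y ^ 2 + Z y * (e * W y) + (e * W y) ^ 2)) * this
    have h1 : ((2 : ℕ) : ℤ) ^ (t + (3 * t + padicValInt 2 l + 2 * padicValInt 2 e + 3) + 1) ∣
        (y - r) * (l * ((y - r') * (Z y ^ 2 + Z y * (e * W y) + (e * W y) ^ 2))) := by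
      rw [← hfac']
      refine Dvd.dvd.mul_left ((pow_dvd_pow _ ?_).trans h) κ
      omega
    rcases pp_mul 2 Nat.prime_two _ _ _ _ h1 with h2 | h2
    · exact hc1 h2
    have h2' : ((2 : ℕ) : ℤ) ^ (padicValInt 2 l + (3 * t + 2 * padicValInt 2 e + 2) + 1) ∣
        l * ((y - r') * (Z y ^ 2 + Z y * (e * W y) + (e * W y) ^ 2)) :=
      (pow_dvd_pow _ (by omega)).trans h2
    rcases pp_mul 2 Nat.prime_two _ _ _ _ h2' with h3 | h3
    · exact not_pp_dvd 2 Nat.prime_two l hl h3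
    have h3' : ((2 : ℕ) : ℤ) ^ (t + (2 * t + 2 * padicValInt 2 e + 1) + 1) ∣
        (y - r') * (Z y ^ 2 + Z y * (e * W y) + (e * W y) ^ 2) :=
      (pow_dvd_pow _ (by omega)).trans h3
    rcases pp_mul 2 Nat.prime_two _ _ _ _ h3' with h4 | h4
    · exact hc2 h4
    have h4' : (2 : ℤ) ^ (2 * (t + padicValInt 2 e) + 1) ∣
        Z y ^ 2 + Z y * (e * W y) + (e * W y) ^ 2 := by
      have := (pow_dvd_pow ((2 : ℕ) : ℤ) (show 2 * (t + padicValInt 2 e) + 1 ≤
        2 * t + 2 * padicValInt 2 e + 1 + 1 by omega)).trans h4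
      simpa using this
    have h5 := norm_two _ _ _ h4'
    have h5' : ((2 : ℕ) : ℤ) ^ (padicValInt 2 e + t + 1) ∣ e * W y := by
      rw [show padicValInt 2 e + t + 1 = t + padicValInt 2 e + 1 by ring]
      simpa using h5
    rcases pp_mul 2 Nat.prime_two _ _ _ _ h5' with h6 | h6
    · exact not_pp_dvd 2 Nat.prime_two e he0 h6
    · exact hc1 (hW y _ h6)

/-- **K1 + K2**: local isolation of the integer roots of `gh a b`. -/
theorem isolate (a b r : ℤ) (hΔ : 4 * a ^ 3 + 27 * b ^ 2 ≠ 0) (hr : gh a b r = 0) :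
    ∃ p : ℕ, p.Prime ∧ ∃ (c : ℕ) (r' : ℤ), gh a b r' = 0 ∧
      ∀ (y : ℤ) (n : ℕ), (p : ℤ) ^ (4 * n + c) ∣ gh a b y →
        (p : ℤ) ^ n ∣ y - r ∨ (p : ℤ) ^ n ∣ y - r' := by
  by_cases hr0 : r = 0
  · -- `a = 0`, `gh y = y (y^3 + 108 b)`
    subst hr0
    have ha : a = 0 := by
      have : 27 * a ^ 2 = 0 := by unfold gh at hr; linarith
      simpa using this
    subst ha
    have hb0 : b ≠ 0 := by rintro rfl; exact hΔ (by norm_num)
    refine kummer_isolate (gh 0 b) 1 0 (-(108 * b)) (fun y => y) (fun _ => 1) ?_ hr ?_ ?_ ?_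
    · simpa using hb0
    · intro y; unfold gh; ring
    · intro y q hq; exact hq.trans (one_dvd _)
    · intro e he
      refine ⟨1, e, one_ne_zero, ?_, fun y => by ring⟩
      unfold gh
      linear_combination (-e) * he
  · have hr' : r ^ 4 + 18 * a * r ^ 2 + 108 * b * r - 27 * a ^ 2 = 0 := hr
    have hμ : r ^ 2 + 3 * a ≠ 0 := by
      intro hμ
      have h1 : r * (108 * b - 8 * r ^ 3) = 0 := by
        linear_combination hr' - 9 * (r ^ 2 - a) * hμ
      have hb : 27 * b - 2 * r ^ 3 = 0 := by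
        rcases mul_eq_zero.1 h1 with h | h
        · exact absurd h hr0
        · linarith
      apply hΔ
      have : 27 * (4 * a ^ 3 + 27 * b ^ 2) = 0 := by
        linear_combination (4 * ((3 * a) ^ 2 + (3 * a) * (-r ^ 2) + r ^ 4)) * hμ
          + (27 * b + 2 * r ^ 3) * hb
      simpa using this
    have hD : -r * (r ^ 2 + 27 * a) ≠ 0 := by
      intro hD
      have h27 : r ^ 2 + 27 * a = 0 := by
        rcases mul_eq_zero.1 hD with h | h
        · exact absurd (neg_eq_zero.1 h) hr0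
        · exact h
      have h1 : r * (8 * r ^ 3 + 2916 * b) = 0 := by
        linear_combination 27 * hr' - (19 * r ^ 2 - 27 * a) * h27
      have hb : 729 * b + 2 * r ^ 3 = 0 := by
        rcases mul_eq_zero.1 h1 with h | h
        · exact absurd h hr0
        · linarith
      apply hΔ
      have : 19683 * (4 * a ^ 3 + 27 * b ^ 2) = 0 := by
        linear_combination (4 * ((27 * a) ^ 2 + (27 * a) * (-r ^ 2) + r ^ 4)) * h27
          + (729 * b - 2 * r ^ 3) * hb
      simpa using this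
    refine kummer_isolate (gh a b) (9 * r * (r ^ 2 + 3 * a)) r (-r * (r ^ 2 + 27 * a))
      (fun y => 2 * r * (y - r) + 3 * (r ^ 2 + 3 * a)) (fun y => y - r) hD hr ?_ ?_ ?_
    · intro y
      unfold gh
      linear_combination (9 * (r ^ 2 + 3 * a) * y) * hr'
    · intro y q hq; exact hq
    · intro e he
      have hl : 2 * r - e ≠ 0 := by
        intro hl
        have he2 : e = 2 * r := by linarith
        subst he2
        have : 9 * r * (r ^ 2 + 3 * a) = 0 := by linear_combination (-1) * he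
        rcases mul_eq_zero.1 this with h | h
        · rcases mul_eq_zero.1 h with h | h
          · norm_num at h
          · exact hr0 h
        · exact hμ h
      have hlQ : (2 * (r : ℚ) - e) ≠ 0 := by exact_mod_cast hl
      have hrQ : (r : ℚ) ^ 4 + 18 * a * r ^ 2 + 108 * b * r - 27 * a ^ 2 = 0 := by
        exact_mod_cast hr'
      have heQ : -(r : ℚ) * (r ^ 2 + 27 * a) = e ^ 3 := by exact_mod_cast he
      set τ : ℚ := -(3 * ((r : ℚ) ^ 2 + 3 * a)) / (2 * r - e) with hτ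
      have hτ' : (2 * (r : ℚ) - e) * τ + 3 * (r ^ 2 + 3 * a) = 0 := by
        rw [hτ]; field_simp; ring
      have key : 9 * (r : ℚ) * (r ^ 2 + 3 * a) *
          ((r + τ) ^ 4 + 18 * a * (r + τ) ^ 2 + 108 * b * (r + τ) - 27 * a ^ 2) = 0 := by
        linear_combination (9 * ((r : ℚ) ^ 2 + 3 * a) * (r + τ)) * hrQ
          + τ * ((2 * r * τ + 3 * (r ^ 2 + 3 * a)) ^ 2 + (2 * r * τ + 3 * (r ^ 2 + 3 * a)) * (e * τ)
            + (e * τ) ^ 2) * hτ' - τ ^ 4 * heQ
      have hroot : ((r : ℚ) + τ) ^ 4 + 18 * a * (r + τ) ^ 2 + 108 * b * (r + τ) - 27 * a ^ 2 = 0 := by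
        rcases mul_eq_zero.1 key with h | h
        · exfalso
          have hr0Q : (r : ℚ) ≠ 0 := by exact_mod_cast hr0
          have hμQ : ((r : ℚ) ^ 2 + 3 * a) ≠ 0 := by exact_mod_cast hμ
          rcases mul_eq_zero.1 h with h | h
          · rcases mul_eq_zero.1 h with h | h
            · norm_num at h
            · exact hr0Q h
          · exact hμQ h
        · exact h
      obtain ⟨n, hn⟩ := int_of_rat_root a b _ hroot
      have hτn : τ = n - r := by rw [hn]; ring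
      refine ⟨2 * r - e, n, hl, ?_, ?_⟩
      · have : ((gh a b n : ℤ) : ℚ) = 0 := by
          unfold gh; push_cast; rw [hn]; exact hroot
        exact_mod_cast this
      · have hZ : (2 * r - e) * (n - r) + 3 * (r ^ 2 + 3 * a) = 0 := by
          have h := hτ'
          rw [hτn] at h
          exact_mod_cast h
        intro y
        linear_combination hZ

end Fermat.Agent.S52.IRR.H8823
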